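import Fermat.Agent.A3.GR.Easy
import Fermat.Agent.A3.GR.Assembly
import Fermat.Agent.A3.H739.GrAsm
import Fermat.Agent.S37.H697.Equivariant
import Fermat.Agent.S37.H39.RiemannBound
import Fermat.Agent.S37.Core.Board

/-!
# A3 / GOODRED-INST (helper739): leaf RIM from the Prelude's `ReductionInputsModL`

Input = node_rim of row S37 (`S37.Core.RimStatement`, i.e. `ReductionInputsModL A M` at good
levels).  Output = leaf RIM of the GR board in both forms on main:

* `rimStatement_of_reductionInputs : ReductionInputsModL A M → A3.GR.RimStatement A M`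
  (helper19's `A3/GR/Leaves.lean`),
* `redLeaf_of_reductionInputs : ReductionInputsModL A M → A3.H739.RedLeaf M A`
  (`A3/H739/GrAsm.lean`).

The POINTWISE inertia invariance `r (σ • P) = r P` is helper697's uniqueness of place reductions
(`S37.H697.placeReduction_equivariant`, Riemann bound) applied with `φ = id`; the only new input
is the non-constancy hypothesis `hnc` (`exists_principal_mapDomain_ne_zero`: the divisor of `j`
does not reduce to `0`, because `j̄` is not constant).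
-/

set_option autoImplicit false
set_option synthInstance.maxHeartbeats 400000
set_option maxHeartbeats 1000000

noncomputable section

namespace Fermat.Agent.A3.GR.H739

open AlgebraicCurve ModularCurve HahnSeries IsLocalRing
open Fermat.Agent.S37.Rim Fermat.Agent.S37.H940 Fermat.Agent.A3.H799 Fermat.Agent.A3.GR
open Fermat.Agent.S19 (GalQ IsInertiaAt)

variable {A : ValuationSubring Qb} {M : ℕ} [NeZero M]

/-- Mathlib's inertia group is contained in the elementwise one -/
theorem isInertiaAt_of_mem_inertiaSubgroupIn {A : ValuationSubring Qb} {σ : Qb ≃ₐ[ℚ] Qb}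
    (hσ : σ ∈ A.inertiaSubgroupIn ℚ) : IsInertiaAt A σ := by
  intro a ha
  have h1 := Fermat.Agent.S37.H817.residue_of_mem_inertiaSubgroupIn ℚ hσ ⟨a, ha⟩
  have h2 : residue A (⟨σ a, Fermat.Agent.S37.H817.mem_of_mem_inertiaSubgroupIn ℚ hσ ⟨a, ha⟩⟩ -
      ⟨a, ha⟩) = 0 := by
    rw [map_sub, h1, sub_self]
  exact (Fermat.Agent.A3.H739.gr_res_eq_zero _).mp h2

/-- principal divisors of `ℚ̄(X₀(M))` have degree `0` -/
theorem degree_eq_zero_of_mem_principal (D : Divisor Qb (FM M))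
    (hD : D ∈ Divisor.principal (K := Qb) (F := FM M)) : Divisor.degree D = 0 := by
  obtain ⟨f, hf, hDf⟩ := hD
  have hpd : HasPrincipalDivisors Qb (FM M) :=
    (Fermat.Agent.Lib.RR.H864.ff1_modularFunctionFieldBar M).hpd
  obtain ⟨D', hD', hdeg⟩ := hpd.exists_divisor f hf
  have : D = D' := by
    ext P
    rw [hDf, hD']
  rw [this, hdeg]

/-- **non-constancy**: the divisor of `j` does not reduce to zero. -/
theorem exists_principal_mapDomain_ne_zero {ℓ : ℕ} (hℓ : ℓ.Prime) (hℓM : ¬ ℓ ∣ M)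
    (hA : A.LiesOverPrime ℓ) (r : Place Qb (FM M) → Place (kA A) (FkM A M))
    (hr : IsPlaceReductionModL A M r) :
    ∃ D ∈ Divisor.principal (K := Qb) (F := FM M), Finsupp.mapDomain r D ≠ 0 := by
  have hy := Fermat.Agent.S37.Red.coeffMap_jqModC_mem_bar M A
  have hyk := Fermat.Agent.S37.Red.coeffMap_jqModC_mem_fullC M A
  have hjk : (⟨coeffMap (residue A) (jqModC A), hyk⟩ : FkM A M) =
      ⟨jqModC (kA A), jqModC_mem_full (kA A) M⟩ := by
    apply Subtype.ext
    exact coeffMap_jqModC (residue A)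
  have hchar : ∀ p : ℕ, p.Prime → p ∣ M → (p : kA A) ≠ 0 := fun p hp hpM =>
    Fermat.Agent.S18.H9.resChar _ A ℓ p hℓ hp hA (by rintro rfl; exact hℓM hpM)
  have : IsAlgClosed (kA A) := Fermat.Agent.S18.H9.resAlgClosed _ A
  have htr : Transcendental (kA A) (⟨jqModC (kA A), jqModC_mem_full (kA A) M⟩ : FkM A M) :=
    Fermat.Agent.S18.H739.transcendental_jC (kA A) M
  have hfin := Fermat.Agent.S18.H739.finiteDimensional_adjoin_jC (kA A) M hchar
  have hne : coeffMap (residue A) (jqModC A) ≠ 0 := by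
    intro h0
    have h1 : (⟨coeffMap (residue A) (jqModC A), hyk⟩ : FkM A M) = 0 := Subtype.ext h0
    rw [hjk] at h1
    rw [h1] at htr
    exact htr (isAlgebraic_zero)
  have hne' : (⟨coeffMap A.subtype (jqModC A), hy⟩ : FM M) ≠ 0 := by
    intro h0
    apply hne
    have h1 : coeffMap A.subtype (jqModC A) = 0 := congrArg Subtype.val h0
    have h2 : jqModC A = 0 := coeffMap_subtype_injective A (by rw [h1, map_zero])
    rw [h2, map_zero]
  have hpd : HasPrincipalDivisors Qb (FM M) :=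
    (Fermat.Agent.Lib.RR.H864.ff1_modularFunctionFieldBar M).hpd
  obtain ⟨D, hD, -⟩ := hpd.exists_divisor _ hne'
  refine ⟨D, ⟨_, hne', hD⟩, ?_⟩
  intro h0
  -- all orders of `j̄` vanish, so `j̄` is constant
  have hord : ∀ Q : Place (kA A) (FkM A M),
      Q.ord (⟨jqModC (kA A), jqModC_mem_full (kA A) M⟩ : FkM A M) = 0 := by
    intro Q
    have h1 := hr.2 (jqModC A) hy hyk hne D hD Q
    rw [h0, Finsupp.zero_apply, hjk] at h1
    exact h1.symm
  obtain ⟨c, hc⟩ := Fermat.Agent.Lib.RR.H383.eq_algebraMap_of_forall_ord_eq_zero htr hord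
  rw [← hc] at htr
  exact htr (isAlgebraic_algebraMap c)

/-- **pointwise inertia invariance** of a place reduction (elementwise inertia). -/
theorem r_smul_eq_of_isInertiaAt {ℓ : ℕ} (hℓ : ℓ.Prime) (hℓM : ¬ ℓ ∣ M)
    (hA : A.LiesOverPrime ℓ) (r : Place Qb (FM M) → Place (kA A) (FkM A M))
    (hr : IsPlaceReductionModL A M r)
    (hgen : PrincipalGeneratedByIntegral A (residue A) M)
    (σ : Qb ≃ₐ[ℚ] Qb) (hσ : IsInertiaAt A σ) (P : Place Qb (FM M)) :
    r (arithmeticGalois (modularFunctionFieldFull M) σ • P) = r P := by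
  have hdeg : ∀ P : Place Qb (FM M), P.deg = 1 :=
    (Fermat.Agent.Lib.RR.H864.ff1_modularFunctionFieldBar M).deg_eq_one
  have hR : Fermat.Agent.S37.H697.RiemannBound Qb (FM M) :=
    Fermat.Agent.S37.H39.exists_l1_bound_modular M
  have hnc := exists_principal_mapDomain_ne_zero hℓ hℓM hA r hr
  have hσA : ∀ a ∈ A, σ a ∈ A := fun a ha => Fermat.Agent.A3.H739.inertia_map_mem hσ ha
  have hφ : ∀ a : A, residue A ⟨σ a, hσA a a.2⟩ = (RingEquiv.refl (kA A)) (residue A a) := by
    intro a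
    show residue A ⟨σ a, hσA a a.2⟩ = residue A a
    rw [← sub_eq_zero, ← map_sub, Fermat.Agent.A3.H739.gr_res_eq_zero]
    exact hσ (a : Qb) a.2
  have h := Fermat.Agent.S37.H697.placeReduction_equivariant hr hgen hdeg
    degree_eq_zero_of_mem_principal hR hnc σ hσA (RingEquiv.refl (kA A)) hφ P
  rw [Fermat.Agent.S37.H697.coeffSL_refl, one_smul] at h
  exact h

/-- **Leaf GR-RED** of `A3/H739/GrAsm.lean` from node_rim of row S37. -/
theorem redLeaf_of_reductionInputs {ℓ : ℕ} (hℓ : ℓ.Prime) (hℓM : ¬ ℓ ∣ M)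
    (hA : A.LiesOverPrime ℓ) (h : ReductionInputsModL A M) :
    Fermat.Agent.A3.H739.RedLeaf M A := by
  obtain ⟨r, hr, hgen⟩ := h
  exact ⟨r, hr, fun σ hσ P => r_smul_eq_of_isInertiaAt hℓ hℓM hA r hr hgen σ hσ P⟩

/-- **Leaf RIM** of `A3/GR/Leaves.lean` from node_rim of row S37. -/
theorem rimStatement_of_reductionInputs {ℓ : ℕ} [Fact ℓ.Prime] (hℓM : ¬ ℓ ∣ M)
    (hA : A.LiesOverPrime ℓ) (h : ReductionInputsModL A M) : RimStatement A M := by
  obtain ⟨r, hr, hgen⟩ := h
  have hVG := Fermat.Agent.A3.H739.gr_vg M hℓM A hA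
  refine ⟨r, hr.1, ?_, ?_⟩
  · intro u hu D hD Q
    exact Fermat.Agent.A3.H739.gr_div_red hVG r hr ⟨u.1, u.2⟩ hu D hD Q
  · intro σ hσ P
    exact r_smul_eq_of_isInertiaAt Fact.out hℓM hA r hr hgen σ
      (isInertiaAt_of_mem_inertiaSubgroupIn hσ) P

/-- **Leaf ILIFT** of `A3/GR/Leaves.lean` (helper439's Teichmüller lifts). -/
theorem iLiftStatement (A : ValuationSubring Qb) {ℓ : ℕ} [Fact ℓ.Prime]
    (hA : A.LiesOverPrime ℓ) : ILiftStatement A := by
  intro c
  have : Algebra.IsAlgebraic ℚ Qb := AlgebraicClosure.isAlgebraic ℚ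
  obtain ⟨a, ha, hac, hfix⟩ :=
    Fermat.Agent.S19.H439.exists_inertia_fixed_lift (K := Qb) A (ℓ := ℓ) hA c
  exact ⟨⟨a, ha⟩, hac, fun σ hσ =>
    hfix (σ : Qb →+* Qb) (isInertiaAt_of_mem_inertiaSubgroupIn hσ)⟩

/-- helper19's assembly with only node_rim (S37), GENUS and ORTHO left. -/
def goodRed_of_rim_genus_ortho (A : ValuationSubring Qb) (M : ℕ) [NeZero M] (ℓ : ℕ)
    [Fact ℓ.Prime] (hℓM : ¬ ℓ ∣ M) (hA : A.LiesOverPrime ℓ)
    (hrim : ReductionInputsModL A M) (hgen : GenusStatement A M) (hO : OrthoStatement A M) :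
    GoodRed Qb (FM M) (kA A) (FkM A M) :=
  goodRed_of_leaves ℓ Fact.out hℓM hA (gaussStatement M ℓ Fact.out hℓM A hA)
    (redSurjStatement M ℓ Fact.out hℓM A hA) (rimStatement_of_reductionInputs hℓM hA hrim)
    hgen hO (iBaseStatement A) (iRedStatement A M) (iLiftStatement A hA)
    (iFixedStatement M A)

/-- **GR from node_rim of row S37**: `H979.GrStatement` from `S37.Core.RimStatement` and the
leaves GENUS, ORTH of `A3/H739/GrAsm.lean`. -/
theorem grStatement_of_rim (hrim : Fermat.Agent.S37.Core.RimStatement)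
    (hgen : ∀ (N : ℕ) [NeZero N] (ℓ : ℕ) [Fact ℓ.Prime], ¬ ℓ ∣ N →
      Fermat.Agent.S19.GoodLevel N ℓ →
      ∀ V : ValuationSubring Qb, V.LiesOverPrime ℓ → Fermat.Agent.A3.H739.GenusLeaf N V)
    (horth : ∀ (N : ℕ) [NeZero N] (ℓ : ℕ) [Fact ℓ.Prime] (hℓN : ¬ ℓ ∣ N),
      Fermat.Agent.S19.GoodLevel N ℓ →
      ∀ (V : ValuationSubring Qb) (hV : V.LiesOverPrime ℓ),
        Fermat.Agent.A3.H739.OrthLeaf N V (Fermat.Agent.A3.H739.gr_vg N hℓN V hV)) :
    Fermat.Agent.S19.H979.GrStatement :=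
  Fermat.Agent.A3.H739.grStatement_of_leaves_forall
    (fun N _ ℓ _ hℓN hgood V hV =>
      redLeaf_of_reductionInputs Fact.out hℓN hV (hrim N ℓ Fact.out hℓN hgood V hV))
    hgen horth

end Fermat.Agent.A3.GR.H739
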